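/-
P-DS / P-ES1 / ES1-MODEL (row 601, helper32), part A: generic closure lemmas for representing
functions (growth, invariance).
-/
import Fermat.Agent.H29.ES1.Model1
import Fermat.Agent.H13.EsACoreC

set_option autoImplicit false

noncomputable section

open UpperHalfPlane ModularCurve CongruenceSubgroup
open scoped MatrixGroups Manifold

namespace Fermat.Agent.H32.ES1M

open Fermat.Agent.H29.ES1 Fermat.Agent.H44 Fermat.Agent.H94.EsA

/-- Growth closure: constants. -/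
theorem growth_const (c : ℂ) : HasModerateGrowth (fun _ : ℍ => c) :=
  fun _ => ⟨0, ‖c‖, 0, norm_nonneg _, fun z _ => by simp⟩

/-- Growth closure: sums. -/
theorem growth_add {h₁ h₂ : ℍ → ℂ} (g₁ : HasModerateGrowth h₁) (g₂ : HasModerateGrowth h₂) :
    HasModerateGrowth (h₁ + h₂) := by
  intro γ
  obtain ⟨M₁, C₁, Y₁, hC₁, k₁⟩ := g₁ γ
  obtain ⟨M₂, C₂, Y₂, hC₂, k₂⟩ := g₂ γ
  refine ⟨max M₁ M₂, C₁ + C₂, max Y₁ Y₂, add_nonneg hC₁ hC₂, fun z hz => ?_⟩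
  have hz1 : Y₁ ≤ z.im := le_trans (le_max_left _ _) hz
  have hz2 : Y₂ ≤ z.im := le_trans (le_max_right _ _) hz
  have hpi : 0 < Real.pi := Real.pi_pos
  have him : 0 < z.im := z.im_pos
  have hM1 : ((M₁ : ℕ) : ℝ) ≤ ((max M₁ M₂ : ℕ) : ℝ) := by exact_mod_cast le_max_left _ _
  have hM2 : ((M₂ : ℕ) : ℝ) ≤ ((max M₁ M₂ : ℕ) : ℝ) := by exact_mod_cast le_max_right _ _
  have e1 : Real.exp (2 * Real.pi * M₁ * z.im)
      ≤ Real.exp (2 * Real.pi * (max M₁ M₂ : ℕ) * z.im) := by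
    apply Real.exp_le_exp.mpr
    have : 0 ≤ 2 * Real.pi * z.im := by positivity
    nlinarith
  have e2 : Real.exp (2 * Real.pi * M₂ * z.im)
      ≤ Real.exp (2 * Real.pi * (max M₁ M₂ : ℕ) * z.im) := by
    apply Real.exp_le_exp.mpr
    have : 0 ≤ 2 * Real.pi * z.im := by positivity
    nlinarith
  rw [Pi.add_apply]
  calc ‖h₁ (γ • z) + h₂ (γ • z)‖ ≤ ‖h₁ (γ • z)‖ + ‖h₂ (γ • z)‖ := norm_add_le _ _
    _ ≤ C₁ * Real.exp (2 * Real.pi * M₁ * z.im) + C₂ * Real.exp (2 * Real.pi * M₂ * z.im) :=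
        add_le_add (k₁ z hz1) (k₂ z hz2)
    _ ≤ C₁ * Real.exp (2 * Real.pi * (max M₁ M₂ : ℕ) * z.im) +
          C₂ * Real.exp (2 * Real.pi * (max M₁ M₂ : ℕ) * z.im) :=
        add_le_add (mul_le_mul_of_nonneg_left e1 hC₁) (mul_le_mul_of_nonneg_left e2 hC₂)
    _ = (C₁ + C₂) * Real.exp (2 * Real.pi * (max M₁ M₂ : ℕ) * z.im) := by ring

/-- Growth closure: products. -/
theorem growth_mul {h₁ h₂ : ℍ → ℂ} (g₁ : HasModerateGrowth h₁) (g₂ : HasModerateGrowth h₂) :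
    HasModerateGrowth (h₁ * h₂) := by
  intro γ
  obtain ⟨M₁, C₁, Y₁, hC₁, k₁⟩ := g₁ γ
  obtain ⟨M₂, C₂, Y₂, hC₂, k₂⟩ := g₂ γ
  refine ⟨M₁ + M₂, C₁ * C₂, max Y₁ Y₂, mul_nonneg hC₁ hC₂, fun z hz => ?_⟩
  have hz1 : Y₁ ≤ z.im := le_trans (le_max_left _ _) hz
  have hz2 : Y₂ ≤ z.im := le_trans (le_max_right _ _) hz
  rw [Pi.mul_apply, norm_mul]
  calc ‖h₁ (γ • z)‖ * ‖h₂ (γ • z)‖
      ≤ (C₁ * Real.exp (2 * Real.pi * M₁ * z.im))
          * (C₂ * Real.exp (2 * Real.pi * M₂ * z.im)) :=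
        mul_le_mul (k₁ z hz1) (k₂ z hz2) (norm_nonneg _)
          (mul_nonneg hC₁ (Real.exp_pos _).le)
    _ = C₁ * C₂ * (Real.exp (2 * Real.pi * M₁ * z.im)
          * Real.exp (2 * Real.pi * M₂ * z.im)) := by ring
    _ = C₁ * C₂ * Real.exp (2 * Real.pi * ((M₁ + M₂ : ℕ) : ℝ) * z.im) := by
        rw [← Real.exp_add]
        congr 2
        push_cast
        ring

/-- Growth of `z ↦ j(d z)`. -/
theorem growth_jfun_scale (d : ℕ) [NeZero d] :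
    HasModerateGrowth (fun z => Fermat.Agent.H23.jfun (Fermat.Agent.H23.scaleH d z)) := by
  intro γ
  obtain ⟨Y, hY⟩ := Fermat.Agent.H82.cg_jfun_scaleH_smul_bound d γ
  exact ⟨d, 7, Y, by norm_num, fun z hz => hY z hz⟩

/-- The subgroup of `SL(2, ℤ)` fixing a function on `ℍ`. -/
def invSubgroup (h : ℍ → ℂ) : Subgroup SL(2, ℤ) where
  carrier := {γ | ∀ z : ℍ, h (γ • z) = h z}
  mul_mem' := by
    intro a b ha hb z
    rw [mul_smul, ha, hb]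
  one_mem' := by
    intro z
    rw [one_smul]
  inv_mem' := by
    intro a ha z
    have := ha (a⁻¹ • z)
    rw [smul_inv_smul] at this
    exact this.symm

theorem mem_invSubgroup {h : ℍ → ℂ} {γ : SL(2, ℤ)} :
    γ ∈ invSubgroup h ↔ ∀ z : ℍ, h (γ • z) = h z := Iff.rfl

theorem neg_one_mem_invSubgroup (h : ℍ → ℂ) : (-1 : SL(2, ℤ)) ∈ invSubgroup h := by
  intro z
  rw [ModularGroup.SL_neg_smul, one_smul]

theorem gamma1_le_gamma0' (M : ℕ) : Gamma1 M ≤ Gamma0 M := by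
  intro γ hγ
  rw [Gamma0_mem]
  rw [Gamma1_mem] at hγ
  exact hγ.2.2

/-- Invariance under `⟨Γ₁(M), -1⟩` follows from invariance under `Γ₁(M)`. -/
theorem invariant_gamma1pm {M : ℕ} {h : ℍ → ℂ}
    (hinv : ∀ γ ∈ Gamma1 M, ∀ z : ℍ, h (γ • z) = h z) :
    ∀ γ ∈ gamma1pm M, ∀ z : ℍ, h (γ • z) = h z := by
  have : gamma1pm M ≤ invSubgroup h := by
    refine sup_le (fun γ hγ => hinv γ hγ) ?_
    rw [Subgroup.zpowers_le]
    exact neg_one_mem_invSubgroup h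
  exact fun γ hγ => this hγ

end Fermat.Agent.H32.ES1M

end
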