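/-
P-DS / P-ES1 / ES1-MODEL (row 601, helper32), part B: representing functions of the generators of
`R1 M`, closure, field of fractions.
-/
import Fermat.Agent.H32.ES1.Model1A

set_option autoImplicit false

noncomputable section

open UpperHalfPlane ModularCurve CongruenceSubgroup
open scoped MatrixGroups Manifold

namespace Fermat.Agent.H32.ES1M

open Fermat.Agent.H29.ES1 Fermat.Agent.H44 Fermat.Agent.H94.EsA Fermat.Agent.H23

variable (M : ℕ) [NeZero M]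

/-! ### The generators -/

/-- The Laurent series of `jC1 M d hd` is `jq(q^d)` over `ℂ`. -/
theorem jC1_coe (d : ℕ) [NeZero d] (hd : d ∣ M) :
    ((jC1 M d hd : ↥(F1C M)) : LaurentSeries ℂ) = qExpand ℂ d (jqModC ℂ) := by
  show coeffEmb ℂ (qExpand ℚ d jq) = _
  rw [coeffEmb, coeffMap_qExpand]
  congr 1
  rw [← jqModC_rat]
  exact map_jqModC _

/-- `z ↦ j(d z)` represents `jC1 M d hd`. -/
theorem rel_jC1 (d : ℕ) [NeZero d] (hd : d ∣ M) :
    LaurentRel (fun z => jfun (scaleH d z)) ((jC1 M d hd : ↥(F1C M)) : LaurentSeries ℂ) := by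
  rw [jC1_coe]
  exact laurentRel_jfun_scale d

/-- `j` represents `jC1 M 1`. -/
theorem rel_j : LaurentRel jfun ((jC1 M 1 (one_dvd M) : ↥(F1C M)) : LaurentSeries ℂ) := by
  rw [jC1_coe, qExpand_one_apply]
  exact laurentRel_jfun

theorem vBar_coe (a : (ZMod M)ˣ) :
    ((vBar ℂ M a : ↥(F1C M)) : LaurentSeries ℂ) = coeffEmb ℂ (vGen M (a : ZMod M)) := rfl

/-! ### Good representatives -/

/-- The predicate carried through the induction over `R1 M`. -/
def GoodRep1 (r : ↥(F1C M)) : Prop :=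
  ∃ h : ℍ → ℂ, LaurentRel h (r : LaurentSeries ℂ) ∧
    (∀ γ ∈ gamma1pm M, ∀ z : ℍ, h (γ • z) = h z) ∧ HasModerateGrowth h

theorem goodRep1_jC1 (d : ℕ) [NeZero d] (hd : d ∣ M) : GoodRep1 M (jC1 M d hd) := by
  refine ⟨fun z => jfun (scaleH d z), rel_jC1 M d hd, ?_, growth_jfun_scale d⟩
  exact invariant_gamma1pm (h := fun z => jfun (scaleH d z)) fun γ hγ z =>
    Fermat.Agent.H82.sep_jfun_scaleH_smul M d hd γ (gamma1_le_gamma0' M hγ) z

omit [NeZero M] in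
theorem unit_ne_zero (hM : 2 ≤ M) (a : (ZMod M)ˣ) : (a : ZMod M) ≠ 0 := by
  have : Fact (1 < M) := ⟨hM⟩
  exact a.ne_zero

/-- `V_{-a} = V_a`. -/
theorem VFun_neg (hV : VFunStatement) (a : ZMod M) (ha : a ≠ 0) : VFun M (-a) = VFun M a := by
  have h1 := (hV M (-a) (neg_ne_zero.mpr ha)).2.1
  have h2 := (hV M a ha).2.1
  rw [vGen_neg] at h1
  exact LaurentRel.unique_left h1 h2

theorem goodRep1_vBar (hV : VFunStatement) (hM : 2 ≤ M) (a : (ZMod M)ˣ) :
    GoodRep1 M (vBar ℂ M a) := by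
  have ha := unit_ne_zero M hM a
  obtain ⟨-, hrel, hinv, hgrow⟩ := hV M (a : ZMod M) ha
  refine ⟨VFun M (a : ZMod M), hrel, ?_, hgrow⟩
  apply invariant_gamma1pm
  intro γ hγ z
  rw [hinv γ (gamma1_le_gamma0' M hγ) z]
  rw [Gamma1_mem] at hγ
  rw [hγ.1, one_mul]

theorem goodRep1_algebraMap (c : ℂ) : GoodRep1 M (algebraMap ℂ ↥(F1C M) c) := by
  refine ⟨fun _ => c, ?_, fun _ _ _ => rfl, growth_const c⟩
  have h : ((algebraMap ℂ ↥(F1C M) c : ↥(F1C M)) : LaurentSeries ℂ)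
      = algebraMap ℂ (LaurentSeries ℂ) c := rfl
  rw [h, algebraMap_laurentSeries_eq_single]
  exact laurentRel_const c

theorem goodRep1_add {a b : ↥(F1C M)} (ha : GoodRep1 M a) (hb : GoodRep1 M b) :
    GoodRep1 M (a + b) := by
  obtain ⟨h₁, r₁, i₁, g₁⟩ := ha
  obtain ⟨h₂, r₂, i₂, g₂⟩ := hb
  refine ⟨h₁ + h₂, ?_, ?_, growth_add g₁ g₂⟩
  · have e : ((a + b : ↥(F1C M)) : LaurentSeries ℂ)
        = (a : LaurentSeries ℂ) + (b : LaurentSeries ℂ) := rfl
    rw [e]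
    exact LaurentRel.add r₁ r₂
  · intro γ hγ z
    rw [Pi.add_apply, Pi.add_apply, i₁ γ hγ z, i₂ γ hγ z]

theorem goodRep1_mul {a b : ↥(F1C M)} (ha : GoodRep1 M a) (hb : GoodRep1 M b) :
    GoodRep1 M (a * b) := by
  obtain ⟨h₁, r₁, i₁, g₁⟩ := ha
  obtain ⟨h₂, r₂, i₂, g₂⟩ := hb
  refine ⟨h₁ * h₂, ?_, ?_, growth_mul g₁ g₂⟩
  · have e : ((a * b : ↥(F1C M)) : LaurentSeries ℂ)
        = (a : LaurentSeries ℂ) * (b : LaurentSeries ℂ) := rfl
    rw [e]
    exact LaurentRel.mul r₁ r₂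
  · intro γ hγ z
    rw [Pi.mul_apply, Pi.mul_apply, i₁ γ hγ z, i₂ γ hγ z]

theorem goodRep1_of_mem (hV : VFunStatement) (hM : 2 ≤ M) {r : ↥(F1C M)} (hr : r ∈ R1 M) :
    GoodRep1 M r := by
  rw [R1] at hr
  induction hr using Algebra.adjoin_induction with
  | mem x hx =>
    rcases hx with ⟨d, hd0, hd, rfl⟩ | ⟨a, rfl⟩
    · have := hd0
      exact goodRep1_jC1 M d hd
    · exact goodRep1_vBar M hV hM a
  | algebraMap c => exact goodRep1_algebraMap M c
  | add x y _ _ hx hy => exact goodRep1_add M hx hy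
  | mul x y _ _ hx hy => exact goodRep1_mul M hx hy

/-! ### The field of fractions -/

/-- The generators as Laurent series over `ℂ`. -/
def gens1 : Set (LaurentSeries ℂ) :=
  {x | ∃ (d : ℕ) (_ : NeZero d), d ∣ M ∧ x = coeffEmb ℂ (qExpand ℚ d jq)} ∪
    {x | ∃ a : (ZMod M)ˣ, x = coeffEmb ℂ (vGen M (a : ZMod M))}

theorem coeffEmb_mem_adjoin_gens1 {x : LaurentSeries ℚ} (hx : x ∈ F1 M) :
    coeffEmb ℂ x ∈ IntermediateField.adjoin ℂ (gens1 M) := by
  rw [F1] at hx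
  induction hx using IntermediateField.adjoin_induction with
  | mem x hx =>
    rcases hx with ⟨d, hd, hdN, rfl⟩ | ⟨a, rfl⟩
    · exact IntermediateField.subset_adjoin _ _ (Or.inl ⟨d, hd, hdN, rfl⟩)
    · exact IntermediateField.subset_adjoin _ _ (Or.inr ⟨a, rfl⟩)
  | algebraMap c =>
    rw [Fermat.Agent.H13.esaC_coeffEmb_algebraMap]
    exact IntermediateField.algebraMap_mem _ _
  | add x y _ _ hx hy => rw [map_add]; exact add_mem hx hy
  | inv x _ hx => rw [map_inv₀]; exact inv_mem hx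
  | mul x y _ _ hx hy => rw [map_mul]; exact mul_mem hx hy

theorem F1C_le_adjoin_gens1 : F1C M ≤ IntermediateField.adjoin ℂ (gens1 M) := by
  show laurentBaseChange ℂ (F1 M) ≤ _
  rw [laurentBaseChange, IntermediateField.adjoin_le_iff]
  rintro _ ⟨x, hx, rfl⟩
  exact coeffEmb_mem_adjoin_gens1 M hx

theorem algebraAdjoin_gens1_le : Algebra.adjoin ℂ (gens1 M) ≤ (R1 M).map (F1C M).val := by
  rw [Algebra.adjoin_le_iff]
  rintro _ (⟨d, hd, hdN, rfl⟩ | ⟨a, rfl⟩)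
  · have := hd
    refine ⟨jC1 M d hdN, ?_, rfl⟩
    exact Algebra.subset_adjoin (Or.inl ⟨d, hd, hdN, rfl⟩)
  · refine ⟨vBar ℂ M a, ?_, rfl⟩
    exact Algebra.subset_adjoin (Or.inr ⟨a, rfl⟩)

/-- Every element of `F1C M` is a quotient of two elements of `R1 M`. -/
theorem exists_frac1 (f : ↥(F1C M)) :
    ∃ r s : ↥(F1C M), r ∈ R1 M ∧ s ∈ R1 M ∧ s ≠ 0 ∧ f * s = r := by
  have hf := F1C_le_adjoin_gens1 M f.2
  rw [IntermediateField.mem_adjoin_iff_div] at hf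
  obtain ⟨r, hr, s, hs, hfrs⟩ := hf
  obtain ⟨r', hr', hrr⟩ := algebraAdjoin_gens1_le M hr
  obtain ⟨s', hs', hss⟩ := algebraAdjoin_gens1_le M hs
  by_cases h0 : s' = 0
  · refine ⟨0, 1, zero_mem _, one_mem _, one_ne_zero, ?_⟩
    have hs0 : s = 0 := by rw [← hss, h0]; simp
    have hf0 : f = 0 := by
      apply Subtype.ext
      rw [hfrs, hs0, div_zero]
      rfl
    rw [hf0]
    simp
  · refine ⟨r', s', hr', hs', h0, ?_⟩
    apply Subtype.ext
    show (f : LaurentSeries ℂ) * (s' : LaurentSeries ℂ) = (r' : LaurentSeries ℂ)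
    have hs0 : s ≠ 0 := by
      rw [← hss]
      intro h
      exact h0 (Subtype.ext h)
    have e1 : (s' : LaurentSeries ℂ) = s := hss
    have e2 : (r' : LaurentSeries ℂ) = r := hrr
    rw [e1, e2, hfrs, div_mul_cancel₀ _ hs0]

end Fermat.Agent.H32.ES1M

end
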