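/-
P-DS / P-ES1 / ES1-MODEL (row 601, helper32): the model `(⟨Γ₁(M), -1⟩, F1C M, R1 M, j)` of
`X₁(M)` is modular in the sense of helper23's generic ES1-A, given the analytic properties of the
generators `V_a` (`VFunStatement`).

`Fermat.Agent.H32.ES1M.model1Statement : VFunStatement → Model1Statement`.
-/
import Fermat.Agent.H32.ES1.Model1B
import Fermat.Agent.H82.Separation
import Fermat.Agent.H16.ES1GenA

set_option autoImplicit false

noncomputable section

open UpperHalfPlane ModularCurve CongruenceSubgroup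
open scoped MatrixGroups Manifold

namespace Fermat.Agent.H32.ES1M

open Fermat.Agent.H29.ES1 Fermat.Agent.H44 Fermat.Agent.H94.EsA Fermat.Agent.H23

variable (M : ℕ) [NeZero M]

/-! ### Separation -/

omit [NeZero M] in
theorem coeffEmb_injective' : Function.Injective (coeffEmb ℂ) := by
  intro x y h
  ext k
  have := congrArg (fun s : LaurentSeries ℂ => s.coeff k) h
  simp only [coeffEmb_coeff] at this
  exact (algebraMap ℚ ℂ).injective this

omit [NeZero M] in
theorem isMonicOfOrder_unique {f : LaurentSeries ℚ} {m n : ℤ} (hm : IsMonicOfOrder f m)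
    (hn : IsMonicOfOrder f n) : m = n := by
  rcases lt_trichotomy m n with h | h | h
  · have h1 := hm.coeff_self
    have h2 := hn.coeff_of_lt h
    rw [h1] at h2
    exact absurd h2 one_ne_zero
  · exact h
  · have h1 := hn.coeff_self
    have h2 := hm.coeff_of_lt h
    rw [h1] at h2
    exact absurd h2 one_ne_zero

omit [NeZero M] in
/-- The diagonal entries of an element of `Γ₀(M)` are inverse to each other modulo `M`. -/
theorem diag_mul_eq_one {γ : SL(2, ℤ)} (hγ : γ ∈ Gamma0 M) :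
    ((γ 0 0 : ℤ) : ZMod M) * ((γ 1 1 : ℤ) : ZMod M) = 1 := by
  have hdet : γ 0 0 * γ 1 1 - γ 0 1 * γ 1 0 = 1 := by
    have := γ.2
    rwa [Matrix.det_fin_two] at this
  rw [Gamma0_mem] at hγ
  have := congrArg (Int.cast (R := ZMod M)) hdet
  push_cast at this
  rw [hγ, mul_zero, sub_zero] at this
  exact this

omit [NeZero M] in
theorem two_ne_zero_zmod (hM : 3 ≤ M) : (2 : ZMod M) ≠ 0 := by
  intro h
  have h2 : ((2 : ℕ) : ZMod M) = 0 := by exact_mod_cast h
  rw [ZMod.natCast_eq_zero_iff] at h2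
  have := Nat.le_of_dvd (by norm_num) h2
  omega

omit [NeZero M] in
theorem unit_ne_neg (hM : 3 ≤ M) {a : ZMod M} (ha : IsUnit a) : a ≠ -a := by
  intro h
  have h2 : (2 : ZMod M) * a = 0 := by
    rw [two_mul]
    nth_rewrite 1 [h]
    exact neg_add_cancel a
  have := (ha.mul_left_eq_zero).mp h2
  exact two_ne_zero_zmod M hM this

/-- **Separation** for the model of `X₁(M)`. -/
theorem sep1 (hV : VFunStatement) (hM : 3 ≤ M) (γ : SL(2, ℤ))
    (hγ : ∀ (r : ↥(F1C M)) (h : ℍ → ℂ), r ∈ R1 M →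
      LaurentRel h (r : LaurentSeries ℂ) → ∀ z : ℍ, h (γ • z) = h z) :
    γ ∈ gamma1pm M := by
  have hM1 : Fact (1 < M) := ⟨by omega⟩
  -- `γ ∈ Γ₀(M)`
  have h0 : γ ∈ Gamma0 M := by
    apply Fermat.Agent.H82.sep_mem_Gamma0 M γ
    intro z
    exact hγ (jC1 M M dvd_rfl) (fun z => jfun (scaleH M z))
      (Algebra.subset_adjoin (Or.inl ⟨M, inferInstance, dvd_rfl, rfl⟩)) (rel_jC1 M M dvd_rfl) z
  have hdiag := diag_mul_eq_one M h0
  set α : ZMod M := ((γ 0 0 : ℤ) : ZMod M) with hα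
  have hαu : IsUnit α := IsUnit.of_mul_eq_one _ hdiag
  have hα0 : α ≠ 0 := hαu.ne_zero
  have hα2 : α ≠ -α := unit_ne_neg M hM hαu
  have h10 : (1 : ZMod M) ≠ 0 := one_ne_zero
  have h12 : (1 : ZMod M) ≠ -1 := unit_ne_neg M hM isUnit_one
  -- `V_1 ∘ γ = V_α = V_1`
  obtain ⟨-, hrel1, hinv1, -⟩ := hV M 1 h10
  obtain ⟨-, hrelα, -, -⟩ := hV M α hα0
  have e1 : ∀ z, VFun M 1 (γ • z) = VFun M 1 z := by
    refine hγ (vBar ℂ M 1) (VFun M 1) (Algebra.subset_adjoin (Or.inr ⟨1, rfl⟩)) ?_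
    rw [vBar_coe, Units.val_one]
    exact hrel1
  have e2 : VFun M α = VFun M 1 := by
    funext z
    rw [← e1 z, hinv1 γ h0 z, mul_one]
  rw [e2] at hrelα
  have e3 : vGen M α = vGen M 1 :=
    coeffEmb_injective' (LaurentRel.unique_right hrelα hrel1)
  have m1 := (Fermat.Agent.H16.genFormalStatement M α hα0 hα2).2.2
  have m2 := (Fermat.Agent.H16.genFormalStatement M 1 h10 h12).2.2
  rw [e3] at m1
  have e4 : repMin M α = repMin M 1 := by
    have := isMonicOfOrder_unique m1 m2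
    omega
  rcases (Fermat.Agent.H16.gen_repMin_eq_iff M α 1).mp e4 with h1 | h1
  · -- `γ ∈ Γ₁(M)`
    refine Subgroup.mem_sup_left ?_
    rw [Gamma1_mem]
    refine ⟨h1, ?_, (Gamma0_mem.mp h0)⟩
    rw [h1, one_mul] at hdiag
    exact hdiag
  · -- `-γ ∈ Γ₁(M)`
    have hneg : -γ ∈ Gamma1 M := by
      rw [Gamma1_mem]
      refine ⟨?_, ?_, ?_⟩
      · simp only [Matrix.SpecialLinearGroup.coe_neg, Matrix.neg_apply, Int.cast_neg]
        rw [← hα, h1, neg_neg]
      · simp only [Matrix.SpecialLinearGroup.coe_neg, Matrix.neg_apply, Int.cast_neg]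
        rw [h1] at hdiag
        rw [← hdiag]
        ring
      · simp only [Matrix.SpecialLinearGroup.coe_neg, Matrix.neg_apply, Int.cast_neg]
        rw [Gamma0_mem.mp h0, neg_zero]
    have : γ = -γ * (-1 : SL(2, ℤ)) := by
      rw [neg_mul_neg, mul_one]
    rw [this]
    exact Subgroup.mul_mem_sup hneg (Subgroup.mem_zpowers _)

/-! ### The assembly -/

omit [NeZero M] in
theorem T_mem_Gamma1 : ModularGroup.T ∈ Gamma1 M := by
  rw [Gamma1_mem]
  simp [ModularGroup.T]

/-- **ES1-MODEL.** -/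
theorem model1Statement (hV : VFunStatement) : Model1Statement := by
  intro M _ hM
  exact
    { neg_one_mem := Subgroup.mem_sup_right (Subgroup.mem_zpowers _)
      T_mem := Subgroup.mem_sup_left (T_mem_Gamma1 M)
      finiteIndex := Subgroup.finiteIndex_of_le (le_sup_left : Gamma1 M ≤ gamma1pm M)
      j_mem := by
        show jC1 M 1 (one_dvd M) ∈ R1 M
        exact Algebra.subset_adjoin (Or.inl ⟨1, inferInstance, one_dvd M, rfl⟩)
      j_rep := rel_j M
      frac := exists_frac1 M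
      rep := fun r hr => by
        obtain ⟨h, hrel, hinv, hgrow⟩ :=
          goodRep1_of_mem M hV (by omega) (r := r) (show r ∈ R1 M from hr)
        refine ⟨h, hrel, LaurentRel.mdifferentiable hrel, hinv, fun γ => ?_⟩
        obtain ⟨m, C, Y, -, hb⟩ := hgrow γ
        exact ⟨m, C, Y, hb⟩
      sep := fun γ hγ => sep1 M hV (by omega) γ hγ }

end Fermat.Agent.H32.ES1M

end
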